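/-
Program A (S42 / S29), AJ-core leaf 5 `LeafAN0` of helper96's skeleton (helper80):
for every `ψ ∈ Hp N p` there is a non-zero `g ∈ M_ℂ` with root data of character `ζ_p ^ ψ`
(Eisenstein series with character + analytic = algebraic over `ℂ`).
-/
import Fermat.Agent.S42.H96.Skeleton
import Fermat.Agent.S29.H80.ExistsThetaC
import Fermat.Agent.S29.H37.FieldC

set_option autoImplicit false

open UpperHalfPlane CongruenceSubgroup ModularCurve ModularCurve.Period
open Fermat.Agent.S24 Fermat.Agent.S42.H96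
open scoped MatrixGroups Manifold

noncomputable section

namespace Fermat.Agent.S42.H80

/-- The character `chiOf` of the skeleton is the character `psiChar` of `S29/H80`. -/
theorem chiOf_eq_psiChar {N p : ℕ} [NeZero p] (ψ : Additive (Gamma0 N) →+ ZMod p)
    (γ : Gamma0 N) :
    chiOf p ψ γ = ((Fermat.Agent.S29.H80.psiChar p ψ γ : ℂˣ) : ℂ) := by
  rw [Fermat.Agent.S29.H80.coe_psiChar_eq_exp, chiOf, zetaP, ← Complex.exp_nat_mul]
  congr 1
  ring

/-- **Leaf `LeafAN0`.** -/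
theorem leafAN0 (N p : ℕ) [NeZero N] (hp : p ≠ 0) : LeafAN0 N p := by
  intro ψ hψ
  haveI : NeZero p := ⟨hp⟩
  obtain ⟨G₁, A, B, hG, hchar, -, -, hA, hB, hAB⟩ :=
    Fermat.Agent.S29.H80.exists_ThetaC_of_psi N p ψ hψ.1
  have hB' : evC N B ≠ 0 := (Fermat.Agent.S29.H37.ThetaC_ne_zero_iff N B).mp hB
  have hA' : evC N A ≠ 0 := (Fermat.Agent.S29.H37.ThetaC_ne_zero_iff N A).mp hA
  obtain ⟨m, rfl⟩ : ∃ m, p = m + 1 := Nat.exists_eq_succ_of_ne_zero hp
  refine ⟨evC N A / evC N B, div_ne_zero hA' hB', A * B ^ m, B,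
    fun τ => G₁ τ * ThetaC N B τ, hB', ?_, ?_, ?_, ?_⟩
  · rw [map_mul, map_pow, pow_succ]
    field_simp
  · exact hG.mul (Fermat.Agent.S29.H37.mdiff_ThetaC N B)
  · intro τ
    have h1 := hAB τ
    have h2 : ThetaC N (A * B ^ m) τ = ThetaC N A τ * ThetaC N B τ ^ m := by
      rw [map_mul, map_pow]
      rfl
    have h3 : Fermat.Agent.S29.H37.ThetaC N B τ = ThetaC N B τ := rfl
    have h4 : Fermat.Agent.S29.H37.ThetaC N A τ = ThetaC N A τ := rfl
    rw [h3, h4] at h1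
    rw [h2, ← h1, mul_pow, pow_succ (ThetaC N B τ) m]
    ring
  · intro γ τ
    have h1 := hchar γ τ
    have h2 : ThetaC N B ((γ : SL(2, ℤ)) • τ) = ThetaC N B τ :=
      Fermat.Agent.S29.H37.ThetaC_smul_of_mem N γ.2 B τ
    show G₁ ((γ : SL(2, ℤ)) • τ) * ThetaC N B ((γ : SL(2, ℤ)) • τ)
      = chiOf (m + 1) ψ γ * (G₁ τ * ThetaC N B τ)
    rw [h1, h2, chiOf_eq_psiChar]
    ring

end Fermat.Agent.S42.H80
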