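/-
Program A (S42 / S29), AJ-core leaf 13 `LeafAN5` of helper96's skeleton (helper80):
root data over `ℂ` are stable under multiplication by `p`-th powers.
-/
import Fermat.Agent.S42.H96.Skeleton
import Fermat.Agent.S29.H37.FieldC

set_option autoImplicit false

open UpperHalfPlane CongruenceSubgroup ModularCurve ModularCurve.Period
open Fermat.Agent.S24 Fermat.Agent.S42.H96
open scoped MatrixGroups Manifold

noncomputable section

namespace Fermat.Agent.S42.H80

/-- **Leaf `LeafAN5`.** -/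
theorem leafAN5 (N p : ℕ) [NeZero N] : LeafAN5 N p := by
  intro ψ g g' w hroot hw hg
  obtain ⟨c, b, G, hb, hgb, hG, hGp, hchar⟩ := hroot
  obtain ⟨a', b', hb', hwab⟩ := Fermat.Agent.S29.H37.evFC_frac N w
  have hb'' : evC N b' ≠ 0 := hb'
  have hwab' : w = evC N a' / evC N b' := hwab
  have ha' : evC N a' ≠ 0 := by
    intro h0
    apply hw
    rw [hwab', h0, zero_div]
  refine ⟨c * b' ^ p, b * a', fun τ => G τ * ThetaC N b' τ, ?_, ?_, ?_, ?_, ?_⟩
  · rw [map_mul]
    exact mul_ne_zero hb ha'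
  · have h1 : g' = g / w ^ p := by
      rw [hg, mul_div_assoc, div_self (pow_ne_zero p hw), mul_one]
    rw [h1, map_mul, map_mul, map_pow, ← hgb, hwab', div_pow, mul_pow]
    field_simp
  · exact hG.mul (Fermat.Agent.S29.H37.mdiff_ThetaC N b')
  · intro τ
    have h2 : ThetaC N (c * b' ^ p) τ = ThetaC N c τ * ThetaC N b' τ ^ p := by
      rw [map_mul, map_pow]
      rfl
    rw [h2, ← hGp τ, mul_pow]
  · intro γ τ
    have h1 := hchar γ τ
    have h2 : ThetaC N b' ((γ : SL(2, ℤ)) • τ) = ThetaC N b' τ :=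
      Fermat.Agent.S29.H37.ThetaC_smul_of_mem N γ.2 b' τ
    show G ((γ : SL(2, ℤ)) • τ) * ThetaC N b' ((γ : SL(2, ℤ)) • τ)
      = chiOf p ψ γ * (G τ * ThetaC N b' τ)
    rw [h1, h2]
    ring

end Fermat.Agent.S42.H80
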